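import Fermat.Agent.S14.H246.E2Type

/-!
ARITH-2 of the S14 plan (helper246): in the `p`-th cyclotomic field, `p ≥ 5`, a unit of type `ω²`
which is congruent to a rational integer modulo `λ³` is a `p`-th power.
-/

open NumberField NumberField.Units NumberField.InfinitePlace Polynomial

namespace Fermat.Agent.S14.H246

variable {p : ℕ} [hp : Fact p.Prime] {K : Type*} [Field K] [NumberField K]
  [hK : IsCyclotomicExtension {p} ℚ K] {ζ : K} (hζ : IsPrimitiveRoot ζ p)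

include hK in
/-- the cyclotomic character is bijective -/
lemma autToPow_bijective : Function.Bijective (hζ.autToPow ℚ) := by
  have : IsGalois ℚ K := IsCyclotomicExtension.isGalois {p} ℚ K
  have : FiniteDimensional ℚ K := IsCyclotomicExtension.finiteDimensional {p} ℚ K
  rw [Fintype.bijective_iff_injective_and_card]
  refine ⟨hζ.autToPow_injective ℚ, ?_⟩
  rw [← Nat.card_eq_fintype_card, IsGalois.card_aut_eq_finrank,
    IsCyclotomicExtension.finrank K (cyclotomic.irreducible_rat hp.out.pos),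
    ZMod.card_units_eq_totient]

include hK hζ in
/-- a generator of the Galois group -/
lemma exists_generator (hp5 : 5 ≤ p) :
    ∃ (σ : K ≃ₐ[ℚ] K) (g₁ : (ZMod p)ˣ), σ ζ = ζ ^ (g₁ : ZMod p).val ∧
      (∀ τ : K ≃ₐ[ℚ] K, ∃ m : ℕ, τ = (σ⁻¹) ^ m) ∧ σ ^ (p - 1) = 1 ∧ g₁ ≠ 1 := by
  obtain ⟨g₀, hg₀⟩ := IsCyclic.exists_generator (α := (ZMod p)ˣ)
  have hbij := autToPow_bijective hζ
  obtain ⟨σ, hσ⟩ := hbij.2 g₀⁻¹
  have hcard : Fintype.card (ZMod p)ˣ = p - 1 := by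
    rw [ZMod.card_units_eq_totient, Nat.totient_prime hp.out]
  refine ⟨σ, g₀⁻¹, ?_, ?_, ?_, ?_⟩
  · rw [← hσ]
    exact (hζ.autToPow_spec ℚ σ).symm
  · intro τ
    have h1 : hζ.autToPow ℚ τ ∈ Subgroup.zpowers g₀ := hg₀ _
    rw [← mem_powers_iff_mem_zpowers] at h1
    obtain ⟨m, hm⟩ := h1
    refine ⟨m, hbij.1 ?_⟩
    rw [map_pow, map_inv, hσ, inv_inv]
    exact hm.symm
  · apply hbij.1
    rw [map_pow, hσ, map_one, ← hcard]
    exact pow_card_eq_one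
  · intro h1
    have hg1 : g₀ = 1 := by rw [← inv_inv g₀, h1, inv_one]
    have h2 : ∀ x : (ZMod p)ˣ, x = 1 := by
      intro x
      have := hg₀ x
      rw [hg1, Subgroup.zpowers_one_eq_bot, Subgroup.mem_bot] at this
      exact this
    have h3 : Fintype.card (ZMod p)ˣ ≤ 1 := Fintype.card_le_one_iff.mpr
      (fun a b => by rw [h2 a, h2 b])
    omega

include hK in
lemma torsion_pow_eq_one (hp5 : 5 ≤ p) (t : (𝓞 K)ˣ) (ht : t ∈ torsion K) : t ^ (2 * p) = 1 := by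
  have : NeZero p := ⟨hp.out.ne_zero⟩
  have h1 : torsionOrder K = 2 * p := by
    rw [IsCyclotomicExtension.Rat.torsionOrder_eq (n := p) (K := K)]
    have hodd : ¬ Even p := by
      rw [Nat.not_even_iff_odd]
      exact hp.out.odd_of_ne_two (by omega)
    rw [if_neg hodd]
  have h2 : (⟨t, ht⟩ : torsion K) ^ torsionOrder K = 1 := by
    rw [torsionOrder]
    exact pow_card_eq_one'
  rw [h1] at h2
  exact congrArg Subtype.val h2

omit hK in
include hζ in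
lemma unitMap_root (σ : K ≃ₐ[ℚ] K) (g : ℕ) (hσ : σ ζ = ζ ^ g) (z : (𝓞 K)ˣ) (hz : z ^ p = 1) :
    unitMap σ z = z ^ g := by
  have hz' : (z : 𝓞 K) ^ p = 1 := by
    rw [← Units.val_pow_eq_pow_val, hz, Units.val_one]
  have : NeZero p := ⟨hp.out.ne_zero⟩
  obtain ⟨i, -, hi⟩ := hζ.toInteger_isPrimitiveRoot.eq_pow_of_pow_eq_one hz'
  apply Units.ext
  rw [unitMap_val, Units.val_pow_eq_pow_val, ← hi, smul_pow', smul_toInteger hζ σ g hσ,
    ← pow_mul, ← pow_mul, mul_comm]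

include hK in
/-- **ARITH-2**: a unit of type `ω²` congruent to a rational integer modulo `λ³` is a `p`-th
power. -/
theorem unit_eq_pow_of_type_of_congr (hp5 : 5 ≤ p) (ε : (𝓞 K)ˣ)
    (htype : ∀ (σ : K ≃ₐ[ℚ] K) (a : ℕ), σ ζ = ζ ^ a →
      ∃ u : (𝓞 K)ˣ, unitMap σ ε = ε ^ (a ^ 2) * u ^ p)
    (hcong : ∃ m : ℤ, (hζ.toInteger - 1) ^ 3 ∣ (ε : 𝓞 K) - m) :
    ∃ u : (𝓞 K)ˣ, ε = u ^ p := by
  obtain ⟨σ, g₁, hσ, hgen, hN, hg1⟩ := exists_generator hζ hp5
  have : IsGalois ℚ K := IsCyclotomicExtension.isGalois {p} ℚ K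
  -- transitivity on places
  have htrans : ∀ w w' : InfinitePlace K, ∃ m : ℕ, (σ⁻¹) ^ m • w = w' := by
    intro w w'
    obtain ⟨τ, hτ⟩ := exists_smul_eq_of_comap_eq (k := ℚ) (w := w) (w' := w')
      (Subsingleton.elim _ _)
    obtain ⟨m, hm⟩ := hgen τ
    exact ⟨m, by rw [← hm, hτ]⟩
  have hpN : ¬ p ∣ p - 1 := by
    intro h
    have := Nat.le_of_dvd (by omega) h
    omega
  -- arithmetic of g
  set g : ℕ := (g₁ : ZMod p).val with hg
  have hgp : ¬ p ∣ g := not_dvd_val g₁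
  have hg0 : 1 ≤ g := by
    rcases Nat.eq_zero_or_pos g with h | h
    · exact absurd (h ▸ dvd_zero p) hgp
    · exact h
  have hgne : g ≠ 1 := by
    intro h
    apply hg1
    apply Units.ext
    rw [Units.val_one, ← ZMod.natCast_zmod_val (g₁ : ZMod p), ← hg, h, Nat.cast_one]
  have hglt : g < p := ZMod.val_lt _
  have hcop : Nat.Coprime (2 * (g ^ 2 - g)) p := by
    rw [Nat.coprime_comm, Nat.Prime.coprime_iff_not_dvd hp.out]
    have e : g ^ 2 - g = g * (g - 1) := by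
      rw [Nat.mul_sub, mul_one, sq]
    rw [e]
    intro h
    rcases (Nat.Prime.dvd_mul hp.out).mp h with h2 | h2
    · have := Nat.le_of_dvd (by norm_num) h2
      omega
    · rcases (Nat.Prime.dvd_mul hp.out).mp h2 with h3 | h3
      · exact hgp h3
      · have := Nat.le_of_dvd (by omega) h3
        omega
  -- the two units
  obtain ⟨u₁, h₁⟩ := unitMap_E2 hζ hp5 σ g₁ hσ
  obtain ⟨u₂, h₂⟩ := htype σ g hσ
  have hne : ¬ ∃ v : (𝓞 K)ˣ, E2 hζ hp5 = v ^ p := by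
    rintro ⟨v, hv⟩
    have h0 : (hζ.toInteger - 1) ^ 3 ∣
        ((E2 hζ hp5 ^ (1 : ℤ) * (v⁻¹) ^ p : (𝓞 K)ˣ) : 𝓞 K) - ((1 : ℤ) : 𝓞 K) := by
      rw [zpow_one, hv, inv_pow, mul_inv_cancel]
      simp
    have h1 := dvd_of_E2_zpow_congr hζ hp5 1 v⁻¹ 1 h0
    have := Int.le_of_dvd one_pos h1
    omega
  obtain ⟨k, v, hkv⟩ := exists_zpow_mul_pow_of_type σ p htrans (p - 1) hN hpN g
    (torsion_pow_eq_one hp5) (unitMap_root hζ σ g hσ) (by omega) hg0 hcop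
    (E2 hζ hp5) ε u₁ u₂ h₁ h₂ hne
  obtain ⟨m, hm⟩ := hcong
  rw [hkv] at hm
  obtain ⟨k₁, hk₁⟩ := dvd_of_E2_zpow_congr hζ hp5 k v m hm
  refine ⟨E2 hζ hp5 ^ k₁ * v, ?_⟩
  rw [hkv, hk₁, mul_pow, ← zpow_natCast (E2 hζ hp5 ^ k₁) p, ← zpow_mul, mul_comm k₁]

end Fermat.Agent.S14.H246
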