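import Fermat.Agent.S14.Spec
import Fermat.Agent.S14.H246.Arith2

/-!
The units block `Spec.UnitStatement` of the S14 plan (helper246).
-/

open NumberField NumberField.Units Polynomial

namespace Fermat.Agent.S14.H246

/-- a `p`-th root in `K` of a unit of `𝓞 K` is a unit of `𝓞 K` -/
lemma exists_unit_of_pow_eq {K : Type*} [Field K] [NumberField K] {p : ℕ} (hp : 0 < p)
    (y : K) (w : (𝓞 K)ˣ) (h : y ^ p = ((w : 𝓞 K) : K)) :
    ∃ v : (𝓞 K)ˣ, ((v : 𝓞 K) : K) = y ∧ v ^ p = w := by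
  have hint : IsIntegral ℤ y := by
    apply IsIntegral.of_pow hp
    rw [h]
    exact RingOfIntegers.isIntegral_coe (w : 𝓞 K)
  let y' : 𝓞 K := ⟨y, hint⟩
  have hy' : y' ^ p = (w : 𝓞 K) := by
    apply RingOfIntegers.ext
    have : ((y' ^ p : 𝓞 K) : K) = ((y' : 𝓞 K) : K) ^ p := map_pow (algebraMap (𝓞 K) K) _ _
    rw [this]
    exact h
  have hu : IsUnit y' := by
    have h1 : IsUnit (y' ^ p) := by rw [hy']; exact w.isUnit
    exact (isUnit_pow_iff hp.ne').mp h1
  refine ⟨hu.unit, rfl, ?_⟩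
  apply Units.ext
  rw [Units.val_pow_eq_pow_val]
  exact hy'

theorem unitStatement : Spec.UnitStatement := by
  intro p hp hp5 K _ _ _ u htype hcong
  have : NeZero p := Spec.neZero p
  have hζ := IsCyclotomicExtension.zeta_spec p ℚ K
  refine unit_eq_pow_of_type_of_congr hζ hp5 u ?_ ?_
  · intro σ a hσ
    obtain ⟨y, hy⟩ := htype σ
    -- the exponent of the specification
    have hspec : IsCyclotomicExtension.zeta p ℚ K ^ Spec.galExp p K σ =
        σ (IsCyclotomicExtension.zeta p ℚ K) :=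
      hζ.autToPow_spec ℚ σ
    have hmod : a ≡ Spec.galExp p K σ [MOD p] := by
      have hlt : Spec.galExp p K σ < p := ZMod.val_lt _
      have h1 : IsCyclotomicExtension.zeta p ℚ K ^ (a % p) =
          IsCyclotomicExtension.zeta p ℚ K ^ Spec.galExp p K σ := by
        rw [hspec, hσ]
        conv_rhs => rw [← Nat.mod_add_div a p]
        rw [pow_add, pow_mul, hζ.pow_eq_one, one_pow, mul_one]
      have h2 := hζ.pow_inj (Nat.mod_lt _ hp.out.pos) hlt h1
      rw [Nat.ModEq, h2, Nat.mod_eq_of_lt hlt]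
    have hmod2 : (a ^ 2 : ℤ) ≡ (Spec.galExp p K σ ^ 2 : ℤ) [ZMOD p] := by
      have := (Nat.ModEq.pow 2 hmod)
      exact_mod_cast (Int.natCast_modEq_iff.mpr this)
    obtain ⟨t, ht⟩ := hmod2.symm.dvd
    -- `y` is a unit
    obtain ⟨w, hw⟩ : ∃ w : (𝓞 K)ˣ, w = unitMap σ u * (u ^ (Spec.galExp p K σ ^ 2))⁻¹ := ⟨_, rfl⟩
    have hyw : y ^ p = ((w : 𝓞 K) : K) := by
      have hu0 : (((u : 𝓞 K) : K)) ^ (Spec.galExp p K σ ^ 2) ≠ 0 :=
        pow_ne_zero _ (by exact_mod_cast u.ne_zero)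
      have h5 : w * u ^ (Spec.galExp p K σ ^ 2) = unitMap σ u := by
        rw [hw]; group
      have h6 : ((w : 𝓞 K) : K) * (((u : 𝓞 K) : K)) ^ (Spec.galExp p K σ ^ 2) =
          σ ((u : 𝓞 K) : K) := by
        have := congrArg (fun x : (𝓞 K)ˣ => ((x : 𝓞 K) : K)) h5
        simp only [Units.val_mul, Units.val_pow_eq_pow_val, map_mul, map_pow] at this
        exact this
      rw [hy, mul_comm] at h6
      exact (mul_left_cancel₀ hu0 h6).symm
    obtain ⟨v, -, hv⟩ := exists_unit_of_pow_eq hp.out.pos y w hyw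
    refine ⟨v * (u ^ t)⁻¹, ?_⟩
    have h3 : unitMap σ u = u ^ (Spec.galExp p K σ ^ 2) * v ^ p := by
      rw [hv, hw]
      apply Additive.ofMul.injective
      simp only [ofMul_mul, ofMul_pow, ofMul_inv]
      module
    rw [h3]
    have h4 : u ^ (a ^ 2) = u ^ (Spec.galExp p K σ ^ 2) * (u ^ t) ^ p := by
      rw [← zpow_natCast u (a ^ 2), ← zpow_natCast u (Spec.galExp p K σ ^ 2),
        ← zpow_natCast (u ^ t) p, ← zpow_mul, ← zpow_add]
      congr 1
      push_cast
      linarith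
    rw [h4]
    apply Additive.ofMul.injective
    simp only [ofMul_mul, ofMul_pow, ofMul_inv, ofMul_zpow]
    module
  · obtain ⟨a₀, ha₀⟩ := hcong
    exact ⟨a₀, Ideal.mem_span_singleton.mp ha₀⟩

end Fermat.Agent.S14.H246
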