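import Mathlib

/-!
Derivation on the ring of integers of the `p`-th cyclotomic field with values in `𝓞 K ⧸ (λ^k)`,
`k ≤ p - 2` (helper246).  `Psi hζ k hk : 𝓞 K →ₐ[ℤ] DualNumber (𝓞 K ⧸ (λ^k))` sends `η` to `η + ε`.
-/

open NumberField Polynomial

namespace Fermat.Agent.S14.H246

variable {p : ℕ} [hp : Fact p.Prime] {K : Type*} [Field K] [NumberField K]
  [hK : IsCyclotomicExtension {p} ℚ K] {ζ : K} (hζ : IsPrimitiveRoot ζ p)

include hK in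
lemma lam_ne_zero : hζ.toInteger - 1 ≠ 0 := hζ.zeta_sub_one_prime'.ne_zero

omit [NumberField K] hK in
lemma lam_pow_dvd_p : (hζ.toInteger - 1) ^ (p - 1) ∣ (p : 𝓞 K) :=
  (IsCyclotomicExtension.Rat.associated_zeta_sub_one_pow_prime p hζ).dvd

/-- The ideal `(λ^k)`. -/
noncomputable def lamIdeal (k : ℕ) : Ideal (𝓞 K) := Ideal.span {(hζ.toInteger - 1) ^ k}

/-- The quotient `𝓞 K ⧸ (λ^k)`. -/
abbrev QQ (k : ℕ) : Type _ := 𝓞 K ⧸ lamIdeal hζ k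

omit hK in
lemma minpoly_toInteger : minpoly ℤ hζ.toInteger = cyclotomic p ℤ := by
  rw [cyclotomic_eq_minpoly hζ hp.out.pos]
  exact (minpoly.algebraMap_eq (RingOfIntegers.coe_injective) hζ.toInteger).symm

omit hK in
lemma aeval_toInteger_cyclotomic : aeval hζ.toInteger (cyclotomic p ℤ) = 0 := by
  rw [← minpoly_toInteger hζ]; exact minpoly.aeval _ _

omit hK in
lemma aeval_derivative_mul :
    aeval hζ.toInteger (derivative (cyclotomic p ℤ)) * (hζ.toInteger - 1) =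
      (p : 𝓞 K) * hζ.toInteger ^ (p - 1) := by
  have h := cyclotomic_prime_mul_X_sub_one ℤ p
  have h2 := congrArg (fun f => aeval hζ.toInteger (derivative f)) h
  simp only [derivative_mul, derivative_X, derivative_one, sub_zero, mul_one,
    derivative_X_pow, map_add, map_mul, map_sub, aeval_X, map_one, map_pow, map_natCast,
    aeval_toInteger_cyclotomic hζ, add_zero] at h2
  simpa using h2

include hK in
lemma lam_pow_dvd_derivative :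
    (hζ.toInteger - 1) ^ (p - 2) ∣ aeval hζ.toInteger (derivative (cyclotomic p ℤ)) := by
  obtain ⟨u, hu⟩ := lam_pow_dvd_p hζ
  have h2 : 2 ≤ p := hp.out.two_le
  have h := aeval_derivative_mul hζ
  refine ⟨u * hζ.toInteger ^ (p - 1), ?_⟩
  apply mul_right_cancel₀ (lam_ne_zero hζ)
  rw [h, hu]
  have : p - 1 = (p - 2) + 1 := by omega
  rw [this, pow_succ]
  ring

omit [NumberField K] hK in
lemma p_mem_lamIdeal {k : ℕ} (hk : k ≤ p - 2) : (p : 𝓞 K) ∈ lamIdeal hζ k := by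
  rw [lamIdeal, Ideal.mem_span_singleton]
  exact (pow_dvd_pow _ (by omega)).trans (lam_pow_dvd_p hζ)

omit [NumberField K] hK in
lemma mk_p_eq_zero {k : ℕ} (hk : k ≤ p - 2) :
    Ideal.Quotient.mk (lamIdeal hζ k) (p : 𝓞 K) = 0 :=
  Ideal.Quotient.eq_zero_iff_mem.mpr (p_mem_lamIdeal hζ hk)

/-- The image of the generator. -/
noncomputable def yy (k : ℕ) : DualNumber (QQ hζ k) :=
  TrivSqZeroExt.inl (Ideal.Quotient.mk (lamIdeal hζ k) hζ.toInteger) + TrivSqZeroExt.inr 1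

omit [NumberField K] hK in
lemma aeval_inl (k : ℕ) (x : 𝓞 K) (f : ℤ[X]) :
    aeval (TrivSqZeroExt.inl (Ideal.Quotient.mk (lamIdeal hζ k) x) : DualNumber (QQ hζ k)) f =
      TrivSqZeroExt.inl (Ideal.Quotient.mk (lamIdeal hζ k) (aeval x f)) := by
  have := aeval_algHom_apply ((TrivSqZeroExt.inlAlgHom ℤ (QQ hζ k) (QQ hζ k)).comp
    (Ideal.Quotient.mkₐ ℤ (lamIdeal hζ k))) x f
  simpa using this

include hK in
lemma aeval_yy {k : ℕ} (hk : k ≤ p - 2) :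
    aeval (yy hζ k) (minpoly ℤ hζ.integralPowerBasis.gen) = 0 := by
  rw [hζ.integralPowerBasis_gen, minpoly_toInteger hζ, yy,
    aeval_add_of_sq_eq_zero _ _ _ (by rw [sq, TrivSqZeroExt.inr_mul_inr])]
  rw [aeval_inl, aeval_inl, aeval_toInteger_cyclotomic hζ]
  have : Ideal.Quotient.mk (lamIdeal hζ k)
      (aeval hζ.toInteger (derivative (cyclotomic p ℤ))) = 0 := by
    rw [Ideal.Quotient.eq_zero_iff_mem, lamIdeal, Ideal.mem_span_singleton]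
    exact (pow_dvd_pow _ hk).trans (lam_pow_dvd_derivative hζ)
  rw [this]
  simp

/-- The ring hom `η ↦ η + ε`. -/
noncomputable def Psi {k : ℕ} (hk : k ≤ p - 2) : 𝓞 K →ₐ[ℤ] DualNumber (QQ hζ k) :=
  hζ.integralPowerBasis.lift (yy hζ k) (aeval_yy hζ hk)

lemma Psi_toInteger {k : ℕ} (hk : k ≤ p - 2) : Psi hζ hk hζ.toInteger = yy hζ k := by
  have := hζ.integralPowerBasis.lift_gen (yy hζ k) (aeval_yy hζ hk)
  rwa [hζ.integralPowerBasis_gen] at this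

lemma fst_Psi {k : ℕ} (hk : k ≤ p - 2) (x : 𝓞 K) :
    (Psi hζ hk x).fst = Ideal.Quotient.mk (lamIdeal hζ k) x := by
  have : (TrivSqZeroExt.fstHom ℤ (QQ hζ k) (QQ hζ k)).comp (Psi hζ hk) =
      Ideal.Quotient.mkₐ ℤ (lamIdeal hζ k) := by
    apply hζ.integralPowerBasis.algHom_ext
    rw [hζ.integralPowerBasis_gen]
    simp [Psi_toInteger, yy]
  exact congrArg (fun f => f x) this

/-- The derivation `D`. -/
noncomputable def DD {k : ℕ} (hk : k ≤ p - 2) (x : 𝓞 K) : QQ hζ k := (Psi hζ hk x).snd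

lemma DD_mul {k : ℕ} (hk : k ≤ p - 2) (x y : 𝓞 K) : DD hζ hk (x * y) =
    Ideal.Quotient.mk (lamIdeal hζ k) x * DD hζ hk y +
      DD hζ hk x * Ideal.Quotient.mk (lamIdeal hζ k) y := by
  simp only [DD, map_mul, TrivSqZeroExt.snd_mul, fst_Psi, smul_eq_mul,
    MulOpposite.smul_eq_mul_unop, MulOpposite.unop_op]

lemma DD_add {k : ℕ} (hk : k ≤ p - 2) (x y : 𝓞 K) :
    DD hζ hk (x + y) = DD hζ hk x + DD hζ hk y := by
  simp [DD]

lemma DD_one {k : ℕ} (hk : k ≤ p - 2) : DD hζ hk 1 = 0 := by simp [DD]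

lemma DD_intCast {k : ℕ} (hk : k ≤ p - 2) (m : ℤ) : DD hζ hk (m : 𝓞 K) = 0 := by simp [DD]

lemma DD_natCast {k : ℕ} (hk : k ≤ p - 2) (m : ℕ) : DD hζ hk (m : 𝓞 K) = 0 := by simp [DD]

lemma DD_toInteger {k : ℕ} (hk : k ≤ p - 2) : DD hζ hk hζ.toInteger = 1 := by
  simp [DD, Psi_toInteger, yy]

lemma DD_sub {k : ℕ} (hk : k ≤ p - 2) (x y : 𝓞 K) :
    DD hζ hk (x - y) = DD hζ hk x - DD hζ hk y := by
  simp [DD]

lemma DD_lam {k : ℕ} (hk : k ≤ p - 2) : DD hζ hk (hζ.toInteger - 1) = 1 := by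
  rw [DD_sub, DD_toInteger, DD_one, sub_zero]

lemma DD_pow {k : ℕ} (hk : k ≤ p - 2) (x : 𝓞 K) (n : ℕ) : DD hζ hk (x ^ (n + 1)) =
    (n + 1 : ℕ) * Ideal.Quotient.mk (lamIdeal hζ k) x ^ n * DD hζ hk x := by
  induction n with
  | zero => simp
  | succ n ih =>
    rw [pow_succ, DD_mul, ih, map_pow]
    push_cast
    ring

lemma DD_pow' {k : ℕ} (hk : k ≤ p - 2) (x : 𝓞 K) (n : ℕ) : DD hζ hk (x ^ n) =
    (n : QQ hζ k) * Ideal.Quotient.mk (lamIdeal hζ k) x ^ (n - 1) * DD hζ hk x := by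
  cases n with
  | zero => simp [DD_one]
  | succ n => simpa using DD_pow hζ hk x n

/-- `D` kills everything congruent to an integer modulo `λ^(k+1)`. -/
lemma DD_eq_zero_of_dvd {k : ℕ} (hk : k ≤ p - 2) (u : 𝓞 K) (m : ℤ)
    (h : (hζ.toInteger - 1) ^ (k + 1) ∣ u - m) : DD hζ hk u = 0 := by
  obtain ⟨x, hx⟩ := h
  have hu : u = m + (hζ.toInteger - 1) ^ (k + 1) * x := by rw [← hx]; ring
  have h0 : Ideal.Quotient.mk (lamIdeal hζ k) ((hζ.toInteger - 1) ^ k) = 0 :=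
    Ideal.Quotient.eq_zero_iff_mem.mpr (Ideal.mem_span_singleton_self _)
  have h1 : Ideal.Quotient.mk (lamIdeal hζ k) ((hζ.toInteger - 1) ^ (k + 1)) = 0 := by
    rw [pow_succ, map_mul, h0, zero_mul]
  rw [hu, DD_add, DD_intCast, DD_mul, h1, zero_mul, zero_add, zero_add, DD_pow, ← map_pow, h0]
  simp

/-- Logarithmic derivative as a monoid hom to the additive group of the quotient. -/
noncomputable def dlog {k : ℕ} (hk : k ≤ p - 2) : (𝓞 K)ˣ →* Multiplicative (QQ hζ k) where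
  toFun u := Multiplicative.ofAdd
    (DD hζ hk (u : 𝓞 K) * Ideal.Quotient.mk (lamIdeal hζ k) ((u⁻¹ : (𝓞 K)ˣ) : 𝓞 K))
  map_one' := by simp [DD_one]
  map_mul' u v := by
    rw [← ofAdd_add]
    congr 1
    have hu : Ideal.Quotient.mk (lamIdeal hζ k) (u : 𝓞 K) *
        Ideal.Quotient.mk (lamIdeal hζ k) ((u⁻¹ : (𝓞 K)ˣ) : 𝓞 K) = 1 := by
      rw [← map_mul, Units.mul_inv, map_one]
    have hv : Ideal.Quotient.mk (lamIdeal hζ k) (v : 𝓞 K) *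
        Ideal.Quotient.mk (lamIdeal hζ k) ((v⁻¹ : (𝓞 K)ˣ) : 𝓞 K) = 1 := by
      rw [← map_mul, Units.mul_inv, map_one]
    rw [Units.val_mul, DD_mul, mul_inv, Units.val_mul, map_mul]
    linear_combination
      (DD hζ hk (v : 𝓞 K) * Ideal.Quotient.mk (lamIdeal hζ k) ((v⁻¹ : (𝓞 K)ˣ) : 𝓞 K)) * hu
      + (DD hζ hk (u : 𝓞 K) * Ideal.Quotient.mk (lamIdeal hζ k) ((u⁻¹ : (𝓞 K)ˣ) : 𝓞 K)) * hv

/-- additive version of `dlog` -/
noncomputable def dl {k : ℕ} (hk : k ≤ p - 2) (u : (𝓞 K)ˣ) : QQ hζ k :=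
  DD hζ hk (u : 𝓞 K) * Ideal.Quotient.mk (lamIdeal hζ k) ((u⁻¹ : (𝓞 K)ˣ) : 𝓞 K)

lemma dl_mul {k : ℕ} (hk : k ≤ p - 2) (u v : (𝓞 K)ˣ) :
    dl hζ hk (u * v) = dl hζ hk u + dl hζ hk v :=
  congrArg Multiplicative.toAdd ((dlog hζ hk).map_mul u v)

lemma dl_one {k : ℕ} (hk : k ≤ p - 2) : dl hζ hk (1 : (𝓞 K)ˣ) = 0 :=
  congrArg Multiplicative.toAdd ((dlog hζ hk).map_one)

lemma dl_pow {k : ℕ} (hk : k ≤ p - 2) (u : (𝓞 K)ˣ) (n : ℕ) :
    dl hζ hk (u ^ n) = n • dl hζ hk u :=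
  congrArg Multiplicative.toAdd ((dlog hζ hk).map_pow u n)

lemma dl_zpow {k : ℕ} (hk : k ≤ p - 2) (u : (𝓞 K)ˣ) (n : ℤ) :
    dl hζ hk (u ^ n) = n • dl hζ hk u :=
  congrArg Multiplicative.toAdd ((dlog hζ hk).map_zpow u n)

lemma dl_prod {k : ℕ} (hk : k ≤ p - 2) {ι : Type*} (s : Finset ι) (f : ι → (𝓞 K)ˣ) :
    dl hζ hk (∏ i ∈ s, f i) = ∑ i ∈ s, dl hζ hk (f i) := by
  have := congrArg Multiplicative.toAdd (map_prod (dlog hζ hk) f s)
  rw [toAdd_prod] at this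
  exact this

lemma dl_pow_p {k : ℕ} (hk : k ≤ p - 2) (u : (𝓞 K)ˣ) : dl hζ hk (u ^ p) = 0 := by
  rw [dl_pow, nsmul_eq_mul]
  have : ((p : ℕ) : QQ hζ k) = 0 := by
    have := mk_p_eq_zero hζ hk
    simpa using this
  rw [this, zero_mul]

lemma dl_eq_zero_of_dvd {k : ℕ} (hk : k ≤ p - 2) (u : (𝓞 K)ˣ) (m : ℤ)
    (h : (hζ.toInteger - 1) ^ (k + 1) ∣ (u : 𝓞 K) - m) : dl hζ hk u = 0 := by
  rw [dl, DD_eq_zero_of_dvd hζ hk _ m h, zero_mul]

/-- characterisation of `dl` avoiding inverses -/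
lemma dl_mul_mk {k : ℕ} (hk : k ≤ p - 2) (u : (𝓞 K)ˣ) :
    dl hζ hk u * Ideal.Quotient.mk (lamIdeal hζ k) (u : 𝓞 K) = DD hζ hk (u : 𝓞 K) := by
  rw [dl, mul_assoc, ← map_mul, Units.inv_mul, map_one, mul_one]

end Fermat.Agent.S14.H246
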