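import Fermat.Agent.S14.H246.Deriv

/-!
The cyclotomic unit `E₂ = ∏_a (1 + η^a)^(a⁻²)` of the `p`-th cyclotomic field and its logarithmic
derivative modulo `λ²` (helper246).
-/

open NumberField Polynomial

namespace Fermat.Agent.S14.H246

variable {p : ℕ} [hp : Fact p.Prime] {K : Type*} [Field K] [NumberField K]
  [hK : IsCyclotomicExtension {p} ℚ K] {ζ : K} (hζ : IsPrimitiveRoot ζ p)

omit [NumberField K] hK hp in
lemma two_le_sub_two (hp5 : 5 ≤ p) : 2 ≤ p - 2 := by omega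

/-- the class of `λ` modulo `λ²` -/
noncomputable def lb : QQ hζ 2 := Ideal.Quotient.mk (lamIdeal hζ 2) (hζ.toInteger - 1)

omit [NumberField K] hK in
lemma lb_sq : lb hζ * lb hζ = 0 := by
  rw [lb, ← map_mul, Ideal.Quotient.eq_zero_iff_mem, lamIdeal, Ideal.mem_span_singleton, sq]

omit [NumberField K] hK in
lemma mk_eta : Ideal.Quotient.mk (lamIdeal hζ 2) hζ.toInteger = 1 + lb hζ := by
  rw [lb, map_sub, map_one]; ring

omit [NumberField K] hK in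
lemma mk_eta_pow (n : ℕ) :
    Ideal.Quotient.mk (lamIdeal hζ 2) hζ.toInteger ^ n = 1 + n * lb hζ := by
  induction n with
  | zero => simp
  | succ n ih =>
    rw [pow_succ, ih, mk_eta]
    push_cast
    linear_combination (n : QQ hζ 2) * lb_sq hζ

omit [NumberField K] hK in
lemma isUnit_one_add_pow (hp5 : 5 ≤ p) (a : ℕ) (ha : ¬ p ∣ a) :
    IsUnit (1 + hζ.toInteger ^ a) := by
  have hprim : IsPrimitiveRoot (hζ.toInteger ^ a) p :=
    hζ.toInteger_isPrimitiveRoot.pow_of_coprime a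
      ((Nat.Prime.coprime_iff_not_dvd hp.out).mpr ha).symm
  have h2 : Nat.Coprime 2 p := by
    rw [Nat.coprime_comm, Nat.Prime.coprime_iff_not_dvd hp.out]
    intro h
    have := Nat.le_of_dvd (by norm_num) h
    omega
  have := hprim.geom_sum_isUnit (by omega) h2
  simpa [Finset.sum_range_succ] using this

omit [NumberField K] hK in
lemma not_dvd_val (a : (ZMod p)ˣ) : ¬ p ∣ (a : ZMod p).val := by
  intro h
  have h0 : ((a : ZMod p).val : ZMod p) = 0 := (ZMod.natCast_eq_zero_iff _ _).mpr h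
  rw [ZMod.natCast_zmod_val] at h0
  exact a.ne_zero h0

/-- the unit `1 + η^a` -/
noncomputable def ww (hp5 : 5 ≤ p) (a : (ZMod p)ˣ) : (𝓞 K)ˣ :=
  (isUnit_one_add_pow hζ hp5 (a : ZMod p).val (not_dvd_val a)).unit

omit [NumberField K] hK in
lemma ww_val (hp5 : 5 ≤ p) (a : (ZMod p)ˣ) :
    ((ww hζ hp5 a : (𝓞 K)ˣ) : 𝓞 K) = 1 + hζ.toInteger ^ (a : ZMod p).val := rfl

/-- exponent `a⁻²` -/
noncomputable def ee (a : (ZMod p)ˣ) : ℕ := (((a⁻¹ : (ZMod p)ˣ) : ZMod p) ^ 2).val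

/-- the unit `E₂` -/
noncomputable def E2 (hp5 : 5 ≤ p) : (𝓞 K)ˣ := ∏ a : (ZMod p)ˣ, ww hζ hp5 a ^ ee a

lemma four_mul_dl_ww (hp5 : 5 ≤ p) (a : (ZMod p)ˣ) :
    4 * dl hζ (two_le_sub_two hp5) (ww hζ hp5 a) =
      2 * ((a : ZMod p).val : QQ hζ 2) +
        (((a : ZMod p).val : QQ hζ 2) ^ 2 - 2 * ((a : ZMod p).val : QQ hζ 2)) * lb hζ := by
  have hX := dl_mul_mk hζ (two_le_sub_two hp5) (ww hζ hp5 a)
  obtain ⟨n, hn⟩ : ∃ n, (a : ZMod p).val = n + 1 := by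
    have : (a : ZMod p).val ≠ 0 := fun h => not_dvd_val a (by rw [h]; exact dvd_zero p)
    exact ⟨(a : ZMod p).val - 1, by omega⟩
  rw [ww_val, hn, DD_add, DD_one, DD_pow, DD_toInteger, map_add, map_one, map_pow,
    mk_eta_pow, mk_eta_pow] at hX
  rw [hn]
  push_cast at hX ⊢
  linear_combination (2 - (n + 1) * lb hζ) * hX +
    ((n + 1) ^ 2 * dl hζ (two_le_sub_two hp5) (ww hζ hp5 a) - n * (n + 1) ^ 2) * lb_sq hζ

omit [NumberField K] hK in
lemma sum_units_inv (hp5 : 5 ≤ p) : ∑ a : (ZMod p)ˣ, ((a⁻¹ : (ZMod p)ˣ) : ZMod p) = 0 := by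
  classical
  have h := FiniteField.sum_pow_units (ZMod p) 1
  rw [ZMod.card p] at h
  have hnd : ¬ (p - 1 ∣ 1) := by
    intro hd
    have := Nat.le_of_dvd (by norm_num) hd
    omega
  rw [if_neg hnd] at h
  simp only [pow_one] at h
  rw [← h]
  exact Fintype.sum_equiv (Equiv.inv _) _ _ (fun a => rfl)

omit [NumberField K] hK in
lemma dvd_S1 (hp5 : 5 ≤ p) : p ∣ ∑ a : (ZMod p)ˣ, ee a * (a : ZMod p).val := by
  rw [← ZMod.natCast_eq_zero_iff]
  push_cast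
  rw [← sum_units_inv hp5]
  refine Finset.sum_congr rfl fun a _ => ?_
  rw [ee, ZMod.natCast_zmod_val, ZMod.natCast_zmod_val, sq, mul_assoc]
  have : ((a⁻¹ : (ZMod p)ˣ) : ZMod p) * (a : ZMod p) = 1 := by
    rw [← Units.val_mul, inv_mul_cancel, Units.val_one]
  rw [this, mul_one]

omit [NumberField K] hK in
lemma dvd_S2 : p ∣ (∑ a : (ZMod p)ˣ, ee a * (a : ZMod p).val ^ 2) + 1 := by
  rw [← ZMod.natCast_eq_zero_iff]
  push_cast
  have : ∀ a : (ZMod p)ˣ, ((ee a : ℕ) : ZMod p) * ((a : ZMod p).val : ZMod p) ^ 2 = 1 := by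
    intro a
    rw [ee, ZMod.natCast_zmod_val, ZMod.natCast_zmod_val, ← mul_pow]
    have : ((a⁻¹ : (ZMod p)ˣ) : ZMod p) * (a : ZMod p) = 1 := by
      rw [← Units.val_mul, inv_mul_cancel, Units.val_one]
    rw [this, one_pow]
  simp only [this]
  rw [Finset.sum_const, Finset.card_univ, ZMod.card_units_eq_totient, Nat.totient_prime hp.out,
    nsmul_eq_mul, mul_one]
  have h1 : 1 ≤ p := hp.out.one_lt.le
  rw [Nat.cast_sub h1]
  simp

omit [NumberField K] hK in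
lemma natCast_eq_zero_of_dvd (hp5 : 5 ≤ p) (n : ℕ) (h : p ∣ n) : (n : QQ hζ 2) = 0 := by
  obtain ⟨m, rfl⟩ := h
  have := mk_p_eq_zero hζ (two_le_sub_two hp5)
  push_cast
  rw [show ((p : ℕ) : QQ hζ 2) = Ideal.Quotient.mk (lamIdeal hζ 2) (p : 𝓞 K) by simp, this,
    zero_mul]

theorem four_mul_dl_E2 (hp5 : 5 ≤ p) :
    4 * dl hζ (two_le_sub_two hp5) (E2 hζ hp5) = - lb hζ := by
  rw [E2, dl_prod, Finset.mul_sum]
  have h1 : ∀ a : (ZMod p)ˣ, 4 * dl hζ (two_le_sub_two hp5) (ww hζ hp5 a ^ ee a) =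
      2 * ((ee a * (a : ZMod p).val : ℕ) : QQ hζ 2) +
        (((ee a * (a : ZMod p).val ^ 2 : ℕ) : QQ hζ 2) -
          2 * ((ee a * (a : ZMod p).val : ℕ) : QQ hζ 2)) * lb hζ := by
    intro a
    rw [dl_pow, nsmul_eq_mul]
    push_cast
    linear_combination (ee a : QQ hζ 2) * four_mul_dl_ww hζ hp5 a
  simp_rw [h1]
  rw [Finset.sum_add_distrib, ← Finset.sum_mul, Finset.sum_sub_distrib, ← Finset.mul_sum,
    ← Nat.cast_sum, ← Nat.cast_sum]
  rw [natCast_eq_zero_of_dvd hζ hp5 _ (dvd_S1 hp5)]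
  have h2 := natCast_eq_zero_of_dvd hζ hp5 _ (dvd_S2 (p := p))
  push_cast at h2 ⊢
  linear_combination lb hζ * h2

include hK in
/-- `k • λ = 0` modulo `λ²` forces `p ∣ k`. -/
lemma dvd_of_intCast_mul_lb_eq_zero (k : ℤ) (h : (k : QQ hζ 2) * lb hζ = 0) : (p : ℤ) ∣ k := by
  have h1 : Ideal.Quotient.mk (lamIdeal hζ 2) ((k : 𝓞 K) * (hζ.toInteger - 1)) = 0 := by
    rw [map_mul, map_intCast]; exact h
  rw [Ideal.Quotient.eq_zero_iff_mem, lamIdeal, Ideal.mem_span_singleton, sq,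
    mul_comm (k : 𝓞 K), mul_dvd_mul_iff_left (lam_ne_zero hζ)] at h1
  exact (IsCyclotomicExtension.Rat.zeta_sub_one_dvd_intCast_iff' p hζ).mp h1

/-- If `E₂ ^ k` times a `p`-th power is congruent to an integer modulo `λ³`, then `p ∣ k`. -/
theorem dvd_of_E2_zpow_congr (hp5 : 5 ≤ p) (k : ℤ) (v : (𝓞 K)ˣ) (m : ℤ)
    (h : (hζ.toInteger - 1) ^ 3 ∣ ((E2 hζ hp5 ^ k * v ^ p : (𝓞 K)ˣ) : 𝓞 K) - m) :
    (p : ℤ) ∣ k := by
  have h0 := dl_eq_zero_of_dvd hζ (two_le_sub_two hp5) _ m h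
  rw [dl_mul, dl_pow_p, add_zero, dl_zpow, zsmul_eq_mul] at h0
  apply dvd_of_intCast_mul_lb_eq_zero hζ
  have h4 := four_mul_dl_E2 hζ hp5
  linear_combination (-4 : QQ hζ 2) * h0 + (k : QQ hζ 2) * h4

end Fermat.Agent.S14.H246
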