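import Fermat.Agent.S14.H246.UnitEigen

/-!
Units of a given eigen-type under a generator of a cyclic Galois group form, modulo `p`-th powers,
a group of dimension at most one (helper246).
-/

open NumberField NumberField.Units NumberField.InfinitePlace Polynomial

namespace Fermat.Agent.S14.H246

open scoped Classical

variable {K : Type*} [Field K] [NumberField K] (σ : K ≃ₐ[ℚ] K)
variable (p : ℕ) [hp : Fact p.Prime]

/-- coordinates of a unit modulo `p` -/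
noncomputable def cbar (ε : (𝓞 K)ˣ) : Fin (rank K) → ZMod p := fun i => (cvec K ε i : ZMod p)

lemma unitLin_cbar (ε : (𝓞 K)ˣ) : unitLin σ p (cbar p ε) = cbar p (unitMap σ ε) := by
  ext i
  rw [unitLin, Matrix.toLin'_apply, cbar, cvec_unitMap]
  simp only [Matrix.mulVec, dotProduct, Matrix.map_apply, cbar]
  push_cast
  rfl

lemma cbar_mem_eigenspace (g : ℕ) (ε u : (𝓞 K)ˣ) (h : unitMap σ ε = ε ^ (g ^ 2) * u ^ p) :
    cbar p ε ∈ Module.End.eigenspace (unitLin σ p) ((g : ZMod p) ^ 2) := by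
  rw [Module.End.mem_eigenspace_iff, unitLin_cbar, h]
  ext i
  simp only [cbar, cvec_mul, cvec_pow, Pi.add_apply, Pi.smul_apply, smul_eq_mul, nsmul_eq_mul]
  push_cast
  simp

omit hp in
/-- the type is preserved under the operation `ε₂ * (ε₁ ^ k)⁻¹` -/
lemma type_mul_zpow_inv (g : ℕ) (ε₁ ε₂ u₁ u₂ : (𝓞 K)ˣ) (k : ℤ)
    (h₁ : unitMap σ ε₁ = ε₁ ^ (g ^ 2) * u₁ ^ p) (h₂ : unitMap σ ε₂ = ε₂ ^ (g ^ 2) * u₂ ^ p) :
    unitMap σ (ε₂ * (ε₁ ^ k)⁻¹) = (ε₂ * (ε₁ ^ k)⁻¹) ^ (g ^ 2) * (u₂ * (u₁ ^ k)⁻¹) ^ p := by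
  rw [map_mul, map_inv, map_zpow, h₁, h₂]
  apply Additive.ofMul.injective
  simp only [ofMul_mul, ofMul_pow, ofMul_zpow, ofMul_inv]
  module

/-- a unit of the given type whose coordinates are divisible by `p` is a `p`-th power -/
lemma exists_eq_pow_of_dvd_cvec (g : ℕ)
    (H1 : ∀ t ∈ torsion K, t ^ (2 * p) = 1)
    (H2 : ∀ z : (𝓞 K)ˣ, z ^ p = 1 → unitMap σ z = z ^ g)
    (hp2 : p ≠ 2) (hg1 : 1 ≤ g) (hcop : Nat.Coprime (2 * (g ^ 2 - g)) p)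
    (x u : (𝓞 K)ˣ) (hx : ∀ i, (p : ℤ) ∣ cvec K x i)
    (h : unitMap σ x = x ^ (g ^ 2) * u ^ p) : ∃ v : (𝓞 K)ˣ, x = v ^ p := by
  choose d hd using hx
  obtain ⟨y, hy⟩ : ∃ y : (𝓞 K)ˣ, y = ∏ i, fundSystem K i ^ d i := ⟨_, rfl⟩
  obtain ⟨t, ht⟩ : ∃ t : (𝓞 K)ˣ, t = x * (y ^ p)⁻¹ := ⟨_, rfl⟩
  have hct : cvec K t = 0 := by
    rw [ht, cvec_mul, cvec_inv, cvec_pow, hy, cvec_prod_zpow]
    ext i
    rw [Pi.add_apply, Pi.neg_apply, Pi.smul_apply, hd i, nsmul_eq_mul, Pi.zero_apply]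
    push_cast
    ring
  have htt : t ∈ torsion K := mem_torsion_of_cvec_eq_zero hct
  have ht2 : t ^ (2 * p) = 1 := H1 t htt
  have hodd : Odd p := hp.out.odd_of_ne_two hp2
  obtain ⟨m, hm⟩ := hodd
  obtain ⟨z, hz⟩ : ∃ z : (𝓞 K)ˣ, z = t ^ (p + 1) := ⟨_, rfl⟩
  have hzp : z ^ p = 1 := by
    rw [hz, ← pow_mul]
    have : (p + 1) * p = (2 * p) * (m + 1) := by rw [hm]; ring
    rw [this, pow_mul, ht2, one_pow]
  obtain ⟨v, hv⟩ : ∃ v : (𝓞 K)ˣ, v = t⁻¹ * y := ⟨_, rfl⟩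
  have hxz : x = z * v ^ p := by
    rw [hz, hv, ht]
    apply Additive.ofMul.injective
    simp only [ofMul_mul, ofMul_pow, ofMul_inv]
    module
  -- the type relation forces `z = 1`
  have hSz : unitMap σ z = z ^ g := H2 z hzp
  obtain ⟨q, hqdef⟩ : ∃ q : (𝓞 K)ˣ, q = (unitMap σ v) * ((v ^ (g ^ 2)) * u)⁻¹ := ⟨_, rfl⟩
  have hle : g ≤ g ^ 2 := by nlinarith
  have hq : z ^ (g ^ 2 - g) = q ^ p := by
    have h3 : z ^ g * (unitMap σ v) ^ p = (z * v ^ p) ^ (g ^ 2) * u ^ p := by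
      rw [← hSz, ← map_pow, ← map_mul, ← hxz]; exact h
    have h5 : z ^ (g ^ 2) = z ^ (g ^ 2 - g) * z ^ g := by
      rw [← pow_add, Nat.sub_add_cancel hle]
    rw [mul_pow, h5] at h3
    rw [hqdef]
    have h6 := congrArg Additive.ofMul h3
    apply Additive.ofMul.injective
    simp only [ofMul_mul, ofMul_pow, ofMul_inv] at h6 ⊢
    have h7 := sub_eq_zero.mpr h6
    rw [← neg_eq_zero] at h7
    rw [← sub_eq_zero]
    convert h7 using 1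
    module
  have hqt : q ∈ torsion K := by
    rw [torsion, CommGroup.mem_torsion, isOfFinOrder_iff_pow_eq_one]
    refine ⟨p * p, Nat.mul_pos hp.out.pos hp.out.pos, ?_⟩
    rw [pow_mul, ← hq, ← pow_mul, mul_comm, pow_mul, hzp, one_pow]
  have hq2 : (q ^ p) ^ 2 = 1 := by
    rw [← pow_mul, mul_comm]; exact H1 q hqt
  have hz2 : z ^ (2 * (g ^ 2 - g)) = 1 := by
    rw [mul_comm, pow_mul, hq, hq2]
  have ho1 : orderOf z ∣ p := orderOf_dvd_of_pow_eq_one hzp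
  have ho2 : orderOf z ∣ 2 * (g ^ 2 - g) := orderOf_dvd_of_pow_eq_one hz2
  have ho : orderOf z ∣ 1 := by
    have := Nat.dvd_gcd ho2 ho1
    rwa [Nat.Coprime.gcd_eq_one hcop] at this
  have hz1 : z = 1 := orderOf_eq_one_iff.mp (Nat.dvd_one.mp ho)
  exact ⟨v, by rw [hxz, hz1, one_mul]⟩

/-- **one-dimensionality**: two units of the same type, the first not a `p`-th power -/
theorem exists_zpow_mul_pow_of_type
    (htrans : ∀ w w' : InfinitePlace K, ∃ m : ℕ, (σ⁻¹) ^ m • w = w')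
    (N : ℕ) (hN : σ ^ N = 1) (hpN : ¬ p ∣ N) (g : ℕ)
    (H1 : ∀ t ∈ torsion K, t ^ (2 * p) = 1)
    (H2 : ∀ z : (𝓞 K)ˣ, z ^ p = 1 → unitMap σ z = z ^ g)
    (hp2 : p ≠ 2) (hg1 : 1 ≤ g) (hcop : Nat.Coprime (2 * (g ^ 2 - g)) p)
    (ε₁ ε₂ u₁ u₂ : (𝓞 K)ˣ)
    (h₁ : unitMap σ ε₁ = ε₁ ^ (g ^ 2) * u₁ ^ p) (h₂ : unitMap σ ε₂ = ε₂ ^ (g ^ 2) * u₂ ^ p)
    (hne : ¬ ∃ v : (𝓞 K)ˣ, ε₁ = v ^ p) :
    ∃ (k : ℤ) (v : (𝓞 K)ˣ), ε₂ = ε₁ ^ k * v ^ p := by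
  have hc1 : cbar p ε₁ ≠ 0 := by
    intro h0
    apply hne
    refine exists_eq_pow_of_dvd_cvec σ p g H1 H2 hp2 hg1 hcop ε₁ u₁ (fun i => ?_) h₁
    have := congrFun h0 i
    simpa [cbar, ZMod.intCast_zmod_eq_zero_iff_dvd] using this
  have hfin := finrank_eigenspace_unitLin_le σ p htrans N hN hpN ((g : ZMod p) ^ 2)
  rw [finrank_le_one_iff] at hfin
  obtain ⟨v₀, hv₀⟩ := hfin
  obtain ⟨a, ha⟩ := hv₀ ⟨cbar p ε₁, cbar_mem_eigenspace σ p g ε₁ u₁ h₁⟩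
  obtain ⟨b, hb⟩ := hv₀ ⟨cbar p ε₂, cbar_mem_eigenspace σ p g ε₂ u₂ h₂⟩
  have ha' : a • (v₀ : Fin (rank K) → ZMod p) = cbar p ε₁ := congrArg Subtype.val ha
  have hb' : b • (v₀ : Fin (rank K) → ZMod p) = cbar p ε₂ := congrArg Subtype.val hb
  have ha0 : a ≠ 0 := by
    rintro rfl
    rw [zero_smul] at ha'
    exact hc1 ha'.symm
  obtain ⟨k, hk⟩ : ∃ k : ZMod p, k = b * a⁻¹ := ⟨_, rfl⟩
  have hkc : cbar p ε₂ = k • cbar p ε₁ := by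
    rw [← ha', ← hb', smul_smul, hk, mul_assoc, inv_mul_cancel₀ ha0, mul_one]
  obtain ⟨k', hk'⟩ : ∃ k' : ℤ, k' = (k.val : ℤ) := ⟨_, rfl⟩
  have hkk : ((k' : ℤ) : ZMod p) = k := by
    rw [hk']; simp
  obtain ⟨v, hv⟩ := exists_eq_pow_of_dvd_cvec σ p g H1 H2 hp2 hg1 hcop
    (ε₂ * (ε₁ ^ k')⁻¹) (u₂ * (u₁ ^ k')⁻¹) (fun i => by
      rw [cvec_mul, cvec_inv, cvec_zpow, ← ZMod.intCast_zmod_eq_zero_iff_dvd]
      have := congrFun hkc i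
      simp only [cbar, Pi.smul_apply, smul_eq_mul] at this
      simp only [Pi.add_apply, Pi.neg_apply, Pi.smul_apply, smul_eq_mul]
      push_cast
      rw [this, hkk]
      ring)
    (type_mul_zpow_inv σ p g ε₁ ε₂ u₁ u₂ k' h₁ h₂)
  refine ⟨k', v, ?_⟩
  rw [← hv]
  apply Additive.ofMul.injective
  simp only [ofMul_mul, ofMul_pow, ofMul_zpow, ofMul_inv]
  module

end Fermat.Agent.S14.H246
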