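import Fermat.Agent.S14.H246.E2
import Fermat.Agent.S14.H246.UnitType

/-!
The Galois type of the cyclotomic unit `E₂` (helper246).
-/

open NumberField NumberField.Units Polynomial

namespace Fermat.Agent.S14.H246

variable {p : ℕ} [hp : Fact p.Prime] {K : Type*} [Field K] [NumberField K]
  [hK : IsCyclotomicExtension {p} ℚ K] {ζ : K} (hζ : IsPrimitiveRoot ζ p)

omit hK in
lemma smul_toInteger (σ : K ≃ₐ[ℚ] K) (g : ℕ) (hσ : σ ζ = ζ ^ g) :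
    σ • hζ.toInteger = hζ.toInteger ^ g := by
  apply RingOfIntegers.ext
  have h1 : ((hζ.toInteger ^ g : 𝓞 K) : K) = ((hζ.toInteger : 𝓞 K) : K) ^ g :=
    map_pow (algebraMap (𝓞 K) K) _ _
  rw [h1]
  exact hσ

omit [NumberField K] hK in
lemma toInteger_pow_mod (n : ℕ) : hζ.toInteger ^ (n % p) = hζ.toInteger ^ n := by
  conv_rhs => rw [← Nat.mod_add_div n p]
  rw [pow_add, pow_mul, hζ.toInteger_isPrimitiveRoot.pow_eq_one, one_pow, mul_one]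

omit hK in
lemma unitMap_ww (hp5 : 5 ≤ p) (σ : K ≃ₐ[ℚ] K) (g₁ : (ZMod p)ˣ)
    (hσ : σ ζ = ζ ^ (g₁ : ZMod p).val) (a : (ZMod p)ˣ) :
    unitMap σ (ww hζ hp5 a) = ww hζ hp5 (g₁ * a) := by
  apply Units.ext
  rw [unitMap_val, ww_val, ww_val, smul_add, smul_one, smul_pow', smul_toInteger hζ σ _ hσ,
    ← pow_mul, Units.val_mul, ZMod.val_mul, toInteger_pow_mod]

omit [NumberField K] hK in
lemma ee_mul_inv (g₁ b : (ZMod p)ˣ) :
    ∃ t : ℤ, ((ee (g₁⁻¹ * b) : ℕ) : ℤ) = ((g₁ : ZMod p).val : ℤ) ^ 2 * (ee b : ℕ) + p * t := by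
  have h : (p : ℤ) ∣ ((ee (g₁⁻¹ * b) : ℕ) : ℤ) - ((g₁ : ZMod p).val : ℤ) ^ 2 * (ee b : ℕ) := by
    rw [← ZMod.intCast_zmod_eq_zero_iff_dvd]
    push_cast
    rw [ee, ee, ZMod.natCast_zmod_val, ZMod.natCast_zmod_val, ZMod.natCast_zmod_val]
    simp only [mul_inv_rev, inv_inv, Units.val_mul]
    ring
  obtain ⟨t, ht⟩ := h
  exact ⟨t, by linarith⟩

omit hK in
/-- `E₂` is of type `g²` under `σ` -/
theorem unitMap_E2 (hp5 : 5 ≤ p) (σ : K ≃ₐ[ℚ] K) (g₁ : (ZMod p)ˣ)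
    (hσ : σ ζ = ζ ^ (g₁ : ZMod p).val) :
    ∃ u : (𝓞 K)ˣ, unitMap σ (E2 hζ hp5) = E2 hζ hp5 ^ ((g₁ : ZMod p).val ^ 2) * u ^ p := by
  choose t ht using ee_mul_inv (p := p) g₁
  refine ⟨∏ b : (ZMod p)ˣ, ww hζ hp5 b ^ t b, ?_⟩
  rw [E2, map_prod]
  simp_rw [map_pow, unitMap_ww hζ hp5 σ g₁ hσ]
  rw [← Finset.prod_pow, ← Finset.prod_pow, ← Finset.prod_mul_distrib]
  have hL : ∏ a : (ZMod p)ˣ, ww hζ hp5 (g₁ * a) ^ ee a =
      ∏ b : (ZMod p)ˣ, ww hζ hp5 b ^ ee (g₁⁻¹ * b) := by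
    rw [← Equiv.prod_comp (Equiv.mulLeft g₁) (fun b => ww hζ hp5 b ^ ee (g₁⁻¹ * b))]
    refine Finset.prod_congr rfl fun a _ => ?_
    simp only [Equiv.coe_mulLeft, inv_mul_cancel_left]
  rw [hL]
  refine Finset.prod_congr rfl fun b _ => ?_
  have h := ht b
  rw [← zpow_natCast (ww hζ hp5 b) (ee (g₁⁻¹ * b)), h]
  apply Additive.ofMul.injective
  simp only [ofMul_mul, ofMul_pow, ofMul_zpow]
  module

end Fermat.Agent.S14.H246
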