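import Mathlib

/-!
Coordinates of units of a number field with respect to a fundamental system (helper246).
-/

open NumberField NumberField.Units NumberField.InfinitePlace

namespace Fermat.Agent.S14.H246

variable (K : Type*) [Field K] [NumberField K]

/-- coordinates of a unit with respect to the fundamental system -/
noncomputable def cvec (ε : (𝓞 K)ˣ) : Fin (rank K) → ℤ :=
  ((exist_unique_eq_mul_prod K ε).exists.choose).2

variable {K}

/-- decomposition of a unit -/
lemma exists_torsion_mul_prod (ε : (𝓞 K)ˣ) :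
    ∃ ξ ∈ torsion K, ε = ξ * ∏ i, fundSystem K i ^ cvec K ε i :=
  ⟨((exist_unique_eq_mul_prod K ε).exists.choose).1,
    ((exist_unique_eq_mul_prod K ε).exists.choose).1.2,
    (exist_unique_eq_mul_prod K ε).exists.choose_spec⟩

lemma cvec_unique {ε ξ : (𝓞 K)ˣ} {d : Fin (rank K) → ℤ} (hξ : ξ ∈ torsion K)
    (h : ε = ξ * ∏ i, fundSystem K i ^ d i) : cvec K ε = d := by
  have h1 := (exist_unique_eq_mul_prod K ε).unique
    (exist_unique_eq_mul_prod K ε).exists.choose_spec
    (show ε = ((⟨ξ, hξ⟩, d) : torsion K × (Fin (rank K) → ℤ)).1 *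
      ∏ i, fundSystem K i ^ ((⟨ξ, hξ⟩, d) : torsion K × (Fin (rank K) → ℤ)).2 i from h)
  exact congrArg Prod.snd h1

lemma cvec_mul (ε ε' : (𝓞 K)ˣ) : cvec K (ε * ε') = cvec K ε + cvec K ε' := by
  obtain ⟨ξ, hξ, h⟩ := exists_torsion_mul_prod ε
  obtain ⟨ξ', hξ', h'⟩ := exists_torsion_mul_prod ε'
  refine cvec_unique (mul_mem hξ hξ') ?_
  conv_lhs => rw [h, h']
  simp only [Pi.add_apply, zpow_add, Finset.prod_mul_distrib]
  rw [mul_mul_mul_comm]

lemma cvec_of_mem_torsion {ξ : (𝓞 K)ˣ} (h : ξ ∈ torsion K) : cvec K ξ = 0 :=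
  cvec_unique h (by simp)

lemma cvec_one : cvec K 1 = 0 := cvec_of_mem_torsion (one_mem _)

lemma cvec_inv (ε : (𝓞 K)ˣ) : cvec K ε⁻¹ = - cvec K ε := by
  have h := cvec_mul ε ε⁻¹
  rw [mul_inv_cancel, cvec_one] at h
  exact eq_neg_of_add_eq_zero_right h.symm

lemma cvec_pow (ε : (𝓞 K)ˣ) (n : ℕ) : cvec K (ε ^ n) = n • cvec K ε := by
  induction n with
  | zero => simp [cvec_one]
  | succ n ih => rw [pow_succ, cvec_mul, ih, succ_nsmul]

lemma cvec_zpow (ε : (𝓞 K)ˣ) (n : ℤ) : cvec K (ε ^ n) = n • cvec K ε := by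
  cases n with
  | ofNat n => simp [cvec_pow]
  | negSucc n =>
    rw [zpow_negSucc, cvec_inv, cvec_pow, negSucc_zsmul]

lemma mem_torsion_of_cvec_eq_zero {ε : (𝓞 K)ˣ} (h : cvec K ε = 0) : ε ∈ torsion K := by
  obtain ⟨ξ, hξ, he⟩ := exists_torsion_mul_prod ε
  rw [h] at he
  simp only [Pi.zero_apply, zpow_zero, Finset.prod_const_one, mul_one] at he
  rw [he]; exact hξ

lemma cvec_prod_zpow (d : Fin (rank K) → ℤ) : cvec K (∏ i, fundSystem K i ^ d i) = d :=
  cvec_unique (one_mem _) (by simp)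

/-- the logarithm of a unit at a place in terms of coordinates -/
lemma log_place_eq (ε : (𝓞 K)ˣ) (w : InfinitePlace K) :
    Real.log (w ((ε : 𝓞 K) : K)) =
      ∑ i, (cvec K ε i : ℝ) * Real.log (w ((fundSystem K i : 𝓞 K) : K)) := by
  obtain ⟨ξ, hξ, he⟩ := exists_torsion_mul_prod ε
  have h1 : w ((ξ : 𝓞 K) : K) = 1 := (mem_torsion K).mp hξ w
  have hε : ((ε : 𝓞 K) : K) =
      ((ξ : 𝓞 K) : K) * ∏ i, (((fundSystem K i : (𝓞 K)ˣ) : 𝓞 K) : K) ^ cvec K ε i := by
    conv_lhs => rw [he]
    push_cast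
    congr 1
    exact Finset.prod_congr rfl fun i _ => NumberField.Units.coe_zpow _ _
  rw [hε, map_mul, h1, one_mul, map_prod, Real.log_prod]
  · refine Finset.sum_congr rfl fun i _ => ?_
    rw [map_zpow₀, Real.log_zpow]
  · intro i _
    rw [map_zpow₀]
    exact zpow_ne_zero _ (by
      rw [map_ne_zero]
      exact_mod_cast (fundSystem K i).ne_zero)

/-- linear independence of the logarithm vectors of the fundamental system -/
lemma eq_zero_of_sum_mul_log_eq_zero (x : Fin (rank K) → ℝ)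
    (h : ∀ w : InfinitePlace K, ∑ i, x i * Real.log (w ((fundSystem K i : 𝓞 K) : K)) = 0) :
    x = 0 := by
  classical
  let w' : InfinitePlace K := (inferInstance : Nonempty (InfinitePlace K)).some
  have hcard : Fintype.card {w : InfinitePlace K // w ≠ w'} = Fintype.card (Fin (rank K)) := by
    rw [Fintype.card_subtype_compl, Fintype.card_subtype_eq, Fintype.card_fin, rank]
  let e : {w : InfinitePlace K // w ≠ w'} ≃ Fin (rank K) := Fintype.equivOfCardEq hcard
  have hreg := regulator_eq_det K w' e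
  have hpos := regulator_pos K
  set M : Matrix {w : InfinitePlace K // w ≠ w'} {w : InfinitePlace K // w ≠ w'} ℝ :=
    Matrix.of fun i w => (w.val.mult : ℝ) * Real.log (w.val ((fundSystem K (e i) : 𝓞 K) : K))
    with hM
  have hdet : M.det ≠ 0 := by
    intro h0
    rw [h0, abs_zero] at hreg
    exact hpos.ne' hreg
  have hv : Matrix.vecMul (x ∘ e) M = 0 := by
    ext w
    simp only [Matrix.vecMul, dotProduct, Function.comp_apply, hM, Matrix.of_apply,
      Pi.zero_apply]
    have := h w.val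
    rw [← Equiv.sum_comp e] at this
    calc ∑ i, x (e i) * ((w.val.mult : ℝ) * Real.log (w.val ((fundSystem K (e i) : 𝓞 K) : K)))
        = (w.val.mult : ℝ) * ∑ i, x (e i) * Real.log (w.val ((fundSystem K (e i) : 𝓞 K) : K)) := by
          rw [Finset.mul_sum]; refine Finset.sum_congr rfl fun i _ => by ring
      _ = 0 := by rw [this, mul_zero]
  have hx := Matrix.eq_zero_of_vecMul_eq_zero hdet hv
  ext i
  have := congrFun hx (e.symm i)
  simpa using this

end Fermat.Agent.S14.H246
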