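import Fermat.Agent.S14.H246.UnitGalois

/-!
Eigenspaces of a generator of a cyclic Galois group on the unit lattice modulo `p` have
dimension at most one (helper246).
-/

open NumberField NumberField.Units NumberField.InfinitePlace Polynomial

namespace Fermat.Agent.S14.H246

open scoped Classical

variable {K : Type*} [Field K] [NumberField K] (σ : K ≃ₐ[ℚ] K)
variable (p : ℕ) [hp : Fact p.Prime]

/-- the permutation matrix modulo `p` as a linear map -/
noncomputable def permLin : Module.End (ZMod p) (InfinitePlace K → ZMod p) :=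
  ((permMat σ).map (Int.cast : ℤ → ZMod p)).toLin'

lemma permLin_apply (v : InfinitePlace K → ZMod p) (w : InfinitePlace K) :
    permLin σ p v w = v (σ⁻¹ • w) := by
  rw [permLin, Matrix.toLin'_apply, permMat_map_mulVec]

lemma permLin_pow_apply (n : ℕ) (v : InfinitePlace K → ZMod p) (w : InfinitePlace K) :
    (permLin σ p ^ n) v w = v ((σ⁻¹) ^ n • w) := by
  induction n generalizing w with
  | zero => simp
  | succ n ih =>
    rw [pow_succ', Module.End.mul_apply, permLin_apply, ih, pow_succ, mul_smul]

lemma finrank_eigenspace_permLin_le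
    (htrans : ∀ w w' : InfinitePlace K, ∃ m : ℕ, (σ⁻¹) ^ m • w = w') (μ : ZMod p) :
    Module.finrank (ZMod p) (Module.End.eigenspace (permLin σ p) μ) ≤ 1 := by
  let w₀ : InfinitePlace K := (inferInstance : Nonempty (InfinitePlace K)).some
  let ev : Module.End.eigenspace (permLin σ p) μ →ₗ[ZMod p] ZMod p :=
    (LinearMap.proj w₀).comp (Submodule.subtype _)
  have hinj : Function.Injective ev := by
    rw [← LinearMap.ker_eq_bot, LinearMap.ker_eq_bot']
    rintro ⟨v, hv⟩ h0
    rw [Module.End.mem_eigenspace_iff] at hv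
    have h0' : v w₀ = 0 := h0
    have hpow : ∀ m : ℕ, v ((σ⁻¹) ^ m • w₀) = μ ^ m * v w₀ := by
      intro m
      induction m with
      | zero => simp
      | succ m ih =>
        have := congrFun hv ((σ⁻¹) ^ m • w₀)
        rw [permLin_apply, Pi.smul_apply, smul_eq_mul, ih, ← mul_smul, ← pow_succ'] at this
        rw [this, pow_succ]
        ring
    apply Subtype.ext
    ext w
    obtain ⟨m, rfl⟩ := htrans w₀ w
    show v ((σ⁻¹) ^ m • w₀) = 0
    rw [hpow m, h0', mul_zero]
  have := LinearMap.finrank_le_finrank_of_injective hinj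
  rwa [Module.finrank_self] at this

lemma rootMultiplicity_charpoly_permLin_le
    (htrans : ∀ w w' : InfinitePlace K, ∃ m : ℕ, (σ⁻¹) ^ m • w = w')
    (N : ℕ) (hN : σ ^ N = 1) (hpN : ¬ p ∣ N) (μ : ZMod p) :
    rootMultiplicity μ (permLin σ p).charpoly ≤ 1 := by
  have hpow : permLin σ p ^ N = 1 := by
    apply LinearMap.ext
    intro v
    ext w
    rw [permLin_pow_apply, inv_pow, hN, inv_one, one_smul]
    rfl
  have hsep : (X ^ N - 1 : (ZMod p)[X]).Separable := by
    rw [X_pow_sub_one_separable_iff]
    intro h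
    exact hpN ((ZMod.natCast_eq_zero_iff N p).mp h)
  have hss : (permLin σ p).IsSemisimple := by
    apply Module.End.isSemisimple_of_squarefree_aeval_eq_zero hsep.squarefree
    simp [hpow]
  rw [← LinearMap.finrank_maxGenEigenspace_eq,
    hss.isFinitelySemisimple.maxGenEigenspace_eq_eigenspace]
  exact finrank_eigenspace_permLin_le σ p htrans μ

/-- the matrix of `σ` on the unit lattice modulo `p` -/
noncomputable def unitLin : Module.End (ZMod p) (Fin (rank K) → ZMod p) :=
  ((unitMat σ).map (Int.cast : ℤ → ZMod p)).toLin'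

theorem finrank_eigenspace_unitLin_le
    (htrans : ∀ w w' : InfinitePlace K, ∃ m : ℕ, (σ⁻¹) ^ m • w = w')
    (N : ℕ) (hN : σ ^ N = 1) (hpN : ¬ p ∣ N) (μ : ZMod p) :
    Module.finrank (ZMod p) (Module.End.eigenspace (unitLin σ p) μ) ≤ 1 := by
  refine (LinearMap.finrank_eigenspace_le _ μ).trans ?_
  have h1 := rootMultiplicity_charpoly_permLin_le σ p htrans N hN hpN μ
  have h2 : (permLin σ p).charpoly = (unitLin σ p).charpoly * (X - 1) := by
    have e1 : ((permMat σ).map (Int.cast : ℤ → ZMod p)) =
        (permMat σ).map (Int.castRingHom (ZMod p)) := rfl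
    have e2 : ((unitMat σ).map (Int.cast : ℤ → ZMod p)) =
        (unitMat σ).map (Int.castRingHom (ZMod p)) := rfl
    rw [permLin, unitLin, Matrix.charpoly_toLin', Matrix.charpoly_toLin', e1, e2,
      Matrix.charpoly_map, Matrix.charpoly_map, charpoly_permMat]
    simp
  rw [h2] at h1
  have hne : (unitLin σ p).charpoly * (X - 1 : (ZMod p)[X]) ≠ 0 :=
    mul_ne_zero (LinearMap.charpoly_monic _).ne_zero (X_sub_C_ne_zero (1 : ZMod p))
  rw [rootMultiplicity_mul hne] at h1
  omega

end Fermat.Agent.S14.H246
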