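import Fermat.Agent.S14.H246.UnitCoord

/-!
Action of a field automorphism on the unit lattice of a number field: the characteristic
polynomial of its integer matrix, times `X - 1`, is the characteristic polynomial of the
permutation matrix of the infinite places (helper246).
-/

open NumberField NumberField.Units NumberField.InfinitePlace Polynomial

namespace Fermat.Agent.S14.H246

variable {K : Type*} [Field K] [NumberField K] (σ : K ≃ₐ[ℚ] K)

/-- action of `σ` on units -/
noncomputable def unitMap : (𝓞 K)ˣ →* (𝓞 K)ˣ :=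
  Units.map ((MulSemiringAction.toRingHom (K ≃ₐ[ℚ] K) (𝓞 K) σ : 𝓞 K →+* 𝓞 K) : 𝓞 K →* 𝓞 K)

lemma unitMap_val (ε : (𝓞 K)ˣ) : ((unitMap σ ε : (𝓞 K)ˣ) : 𝓞 K) = σ • (ε : 𝓞 K) := rfl

lemma unitMap_coe (ε : (𝓞 K)ˣ) : (((unitMap σ ε : (𝓞 K)ˣ) : 𝓞 K) : K) = σ ((ε : 𝓞 K) : K) := rfl

lemma place_unitMap (w : InfinitePlace K) (ε : (𝓞 K)ˣ) :
    w (((unitMap σ ε : (𝓞 K)ˣ) : 𝓞 K) : K) = (σ⁻¹ • w) ((ε : 𝓞 K) : K) := by
  rw [unitMap_coe, InfinitePlace.smul_apply]
  rfl

lemma unitMap_mem_torsion {ξ : (𝓞 K)ˣ} (h : ξ ∈ torsion K) : unitMap σ ξ ∈ torsion K := by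
  rw [torsion, CommGroup.mem_torsion] at h ⊢
  exact (unitMap σ).isOfFinOrder h

/-- the integer matrix of `σ` on the unit lattice -/
noncomputable def unitMat : Matrix (Fin (rank K)) (Fin (rank K)) ℤ :=
  Matrix.of fun i j => cvec K (unitMap σ (fundSystem K j)) i

lemma cvec_prod {ι : Type*} (s : Finset ι) (f : ι → (𝓞 K)ˣ) :
    cvec K (∏ i ∈ s, f i) = ∑ i ∈ s, cvec K (f i) := by
  classical
  induction s using Finset.induction_on with
  | empty => simp [cvec_one]
  | insert a s ha ih => rw [Finset.prod_insert ha, Finset.sum_insert ha, cvec_mul, ih]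

lemma cvec_unitMap (ε : (𝓞 K)ˣ) : cvec K (unitMap σ ε) = (unitMat σ).mulVec (cvec K ε) := by
  obtain ⟨ξ, hξ, he⟩ := exists_torsion_mul_prod ε
  conv_lhs => rw [he]
  rw [map_mul, map_prod, cvec_mul, cvec_of_mem_torsion (unitMap_mem_torsion σ hξ), zero_add,
    cvec_prod]
  ext i
  simp only [map_zpow, cvec_zpow, Finset.sum_apply, Pi.smul_apply, smul_eq_mul, Matrix.mulVec,
    dotProduct, unitMat, Matrix.of_apply]
  exact Finset.sum_congr rfl fun j _ => mul_comm _ _

/-- the map `(x, y) ↦ (w ↦ ∑ x_i log w(b_i) + y)` -/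
noncomputable def Theta : ((Fin (rank K) → ℝ) × ℝ) →ₗ[ℝ] (InfinitePlace K → ℝ) where
  toFun x := fun w => ∑ i, x.1 i * Real.log (w ((fundSystem K i : 𝓞 K) : K)) + x.2
  map_add' x y := by
    ext w
    simp only [Prod.fst_add, Pi.add_apply, Prod.snd_add, add_mul, Finset.sum_add_distrib]
    ring
  map_smul' c x := by
    ext w
    simp only [Prod.smul_fst, Pi.smul_apply, smul_eq_mul, Prod.smul_snd, RingHom.id_apply,
      mul_add, Finset.mul_sum, mul_assoc]

lemma Theta_apply (x : (Fin (rank K) → ℝ) × ℝ) (w : InfinitePlace K) :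
    Theta (K := K) x w = ∑ i, x.1 i * Real.log (w ((fundSystem K i : 𝓞 K) : K)) + x.2 := rfl

lemma Theta_injective : Function.Injective (Theta (K := K)) := by
  rw [← LinearMap.ker_eq_bot, LinearMap.ker_eq_bot']
  intro x hx
  have h1 : ∀ w : InfinitePlace K,
      ∑ i, x.1 i * Real.log (w ((fundSystem K i : 𝓞 K) : K)) + x.2 = 0 := fun w => by
    have := congrFun hx w
    simpa [Theta_apply] using this
  have h2 : ∑ w : InfinitePlace K, (w.mult : ℝ) *
      (∑ i, x.1 i * Real.log (w ((fundSystem K i : 𝓞 K) : K)) + x.2) = 0 :=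
    Finset.sum_eq_zero fun w _ => by rw [h1 w, mul_zero]
  have h3 : ∑ w : InfinitePlace K, (w.mult : ℝ) *
      (∑ i, x.1 i * Real.log (w ((fundSystem K i : 𝓞 K) : K))) = 0 := by
    simp_rw [Finset.mul_sum]
    rw [Finset.sum_comm]
    refine Finset.sum_eq_zero fun i _ => ?_
    have := sum_mult_mul_log (fundSystem K i)
    calc ∑ w : InfinitePlace K, (w.mult : ℝ) * (x.1 i * Real.log (w ((fundSystem K i : 𝓞 K) : K)))
        = x.1 i * ∑ w : InfinitePlace K, (w.mult : ℝ) * Real.log (w ((fundSystem K i : 𝓞 K) : K)) := by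
          rw [Finset.mul_sum]; exact Finset.sum_congr rfl fun w _ => by ring
      _ = 0 := by rw [this, mul_zero]
  have h4 : x.2 = 0 := by
    simp_rw [mul_add] at h2
    rw [Finset.sum_add_distrib, h3, zero_add, ← Finset.sum_mul] at h2
    have h5 : (∑ w : InfinitePlace K, (w.mult : ℝ)) ≠ 0 := by
      have := sum_mult_eq (K := K)
      have h6 : (∑ w : InfinitePlace K, (w.mult : ℝ)) = (Module.finrank ℚ K : ℝ) := by
        exact_mod_cast congrArg (Nat.cast : ℕ → ℝ) this
      rw [h6]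
      exact_mod_cast (Module.finrank_pos (R := ℚ) (M := K)).ne'
    exact (mul_eq_zero.mp h2).resolve_left h5
  have h7 : x.1 = 0 := by
    apply eq_zero_of_sum_mul_log_eq_zero
    intro w
    have := h1 w
    rw [h4, add_zero] at this
    exact this
  exact Prod.ext h7 h4

open scoped Classical

/-- permutation matrix of `w ↦ σ⁻¹ • w` over `ℤ` -/
noncomputable def permMat : Matrix (InfinitePlace K) (InfinitePlace K) ℤ :=
  Matrix.of fun w w' => if σ⁻¹ • w = w' then 1 else 0

lemma permMat_map_mulVec {R : Type*} [CommRing R] (v : InfinitePlace K → R)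
    (w : InfinitePlace K) :
    ((permMat σ).map (Int.cast : ℤ → R)).mulVec v w = v (σ⁻¹ • w) := by
  simp only [Matrix.mulVec, dotProduct, permMat, Matrix.map_apply, Matrix.of_apply]
  rw [Finset.sum_eq_single (σ⁻¹ • w)]
  · simp
  · intro w' _ hw'
    rw [if_neg (Ne.symm hw')]
    simp
  · intro h
    exact absurd (Finset.mem_univ _) h

/-- the real linear equivalence induced by `Theta` -/
noncomputable def ThetaEquiv : ((Fin (rank K) → ℝ) × ℝ) ≃ₗ[ℝ] (InfinitePlace K → ℝ) :=
  LinearEquiv.ofInjectiveOfFinrankEq (Theta (K := K)) Theta_injective (by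
    rw [Module.finrank_prod, Module.finrank_fin_fun, Module.finrank_self,
      Module.finrank_fintype_fun_eq_card, rank]
    have : 0 < Fintype.card (InfinitePlace K) := Fintype.card_pos
    omega)

lemma ThetaEquiv_apply (x : (Fin (rank K) → ℝ) × ℝ) : ThetaEquiv (K := K) x = Theta x := rfl

lemma perm_comp_Theta (x : (Fin (rank K) → ℝ) × ℝ) :
    ((permMat σ).map (Int.cast : ℤ → ℝ)).toLin' (Theta x) =
      Theta (((unitMat σ).map (Int.cast : ℤ → ℝ)).toLin' x.1, x.2) := by
  ext w
  rw [Matrix.toLin'_apply, permMat_map_mulVec, Theta_apply, Theta_apply]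
  congr 1
  have h1 : ∀ j, Real.log ((σ⁻¹ • w) ((fundSystem K j : 𝓞 K) : K)) =
      ∑ i, ((unitMat σ) i j : ℝ) * Real.log (w ((fundSystem K i : 𝓞 K) : K)) := by
    intro j
    rw [← place_unitMap, log_place_eq]
    rfl
  simp_rw [h1, Finset.mul_sum]
  rw [Finset.sum_comm]
  refine Finset.sum_congr rfl fun i _ => ?_
  simp only [Matrix.toLin'_apply, Matrix.mulVec, dotProduct, Matrix.map_apply, Finset.sum_mul]
  exact Finset.sum_congr rfl fun j _ => by ring

/-- the key identity of characteristic polynomials -/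
theorem charpoly_permMat :
    (permMat σ).charpoly = (unitMat σ).charpoly * (X - 1) := by
  apply Polynomial.map_injective (Int.castRingHom ℝ) Int.cast_injective
  rw [Polynomial.map_mul, ← Matrix.charpoly_map, ← Matrix.charpoly_map]
  have hconj : (ThetaEquiv (K := K)).conj
      ((((unitMat σ).map (Int.cast : ℤ → ℝ)).toLin').prodMap (LinearMap.id : ℝ →ₗ[ℝ] ℝ)) =
      ((permMat σ).map (Int.cast : ℤ → ℝ)).toLin' := by
    apply LinearMap.ext
    intro v
    obtain ⟨x, rfl⟩ := (ThetaEquiv (K := K)).surjective v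
    rw [LinearEquiv.conj_apply_apply, LinearEquiv.symm_apply_apply, ThetaEquiv_apply,
      ThetaEquiv_apply, perm_comp_Theta]
    rfl
  have h1 := LinearEquiv.charpoly_conj (ThetaEquiv (K := K))
    ((((unitMat σ).map (Int.cast : ℤ → ℝ)).toLin').prodMap (LinearMap.id : ℝ →ₗ[ℝ] ℝ))
  rw [hconj, Matrix.charpoly_toLin', LinearMap.charpoly_prodMap, Matrix.charpoly_toLin'] at h1
  have h2 : (LinearMap.id : ℝ →ₗ[ℝ] ℝ).charpoly = X - 1 := by
    have := LinearMap.charpoly_one (R := ℝ) (M := ℝ)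
    rw [Module.finrank_self, pow_one] at this
    exact this
  rw [h2] at h1
  simp only [Int.coe_castRingHom, Polynomial.map_sub, Polynomial.map_X, Polynomial.map_one]
  exact h1

end Fermat.Agent.S14.H246
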